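/-
Fermat/Agent/AV/Vol82/Abstract.lean  (helper82, programme AV = S26/S27, brick VOLABS)

**The abstract arithmetic of the volume trick** (masterplan report 688, step (7)).

`a m = dim H⁰(A, L^m)` for a line bundle `L` on an abelian variety `A` of dimension `g`;
`D = #A[n](K)` (so `D ^ j = #A[n^j](K)`).  From

* crude two-sided growth bounds `C₁ m^g ≤ a m ≤ C₂ m^g` (for large `m`), and
* for every `j` a sandwich `D^j · a (m - c) ≤ a (n^(2j) m) ≤ D^j · a (m + c)` for all large `m`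
  in `δ ℤ` (`c`, `δ` may depend on `j`),

we get `D = n ^ (2 g)`.  Also: the lower growth bound from "monomials of degree `≤ q` in `g`
algebraically independent functions with poles of order `≤ e`", and the upper growth bound from a
product bound `a m ≤ ∏ (m bᵢ + 1)`.

Mathlib only.
-/
import Mathlib

set_option autoImplicit false

namespace Fermat.Agent.AV.Vol82

open Filter

/-- If `x ^ j ≤ K * y ^ j` for all `j` (with `y > 0`), then `x ≤ y`. -/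
theorem le_of_forall_pow_le_mul_pow {x y K : ℝ} (hy : 0 < y)
    (h : ∀ j : ℕ, x ^ j ≤ K * y ^ j) : x ≤ y := by
  by_contra hlt
  have hlt' : y < x := lt_of_not_ge hlt
  have hr : 1 < x / y := by rw [one_lt_div hy]; exact hlt'
  have hbound : ∀ j : ℕ, (x / y) ^ j ≤ K := by
    intro j
    rw [div_pow, div_le_iff₀ (pow_pos hy j)]
    exact h j
  obtain ⟨j, hj⟩ := ((tendsto_pow_atTop_atTop_of_one_lt hr).eventually_gt_atTop K).exists
  exact absurd (hbound j) (not_le.2 hj)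

/-- **Volume trick, core form.**  Growth bounds of order `m ^ g` for `a` and, for every `j`, a
sandwich of `a (n ^ (2 j) m)` between `D ^ j · a (m ∓ c)` force `D = n ^ (2 g)`. -/
theorem eq_pow_of_sandwich (g n D : ℕ) (hn : 1 ≤ n) (a : ℕ → ℕ) (C₁ C₂ : ℝ) (hC₁ : 0 < C₁)
    (hlow : ∃ m₀ : ℕ, ∀ m : ℕ, m₀ ≤ m → C₁ * (m : ℝ) ^ g ≤ a m)
    (hupp : ∃ m₀ : ℕ, ∀ m : ℕ, m₀ ≤ m → (a m : ℝ) ≤ C₂ * (m : ℝ) ^ g)
    (hsand : ∀ j : ℕ, ∃ c δ : ℕ, 0 < δ ∧ ∀ m : ℕ, δ ∣ m → c < m →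
      D ^ j * a (m - c) ≤ a (n ^ (2 * j) * m) ∧ a (n ^ (2 * j) * m) ≤ D ^ j * a (m + c)) :
    D = n ^ (2 * g) := by
  obtain ⟨m₁, hm₁⟩ := hlow
  obtain ⟨m₂, hm₂⟩ := hupp
  set M₀ : ℕ := max m₁ m₂ + 1 with hM₀
  have hM₀1 : m₁ ≤ M₀ := by omega
  have hM₀2 : m₂ ≤ M₀ := by omega
  have hM₀pos : 0 < M₀ := by omega
  -- `C₂` is positive
  have hC₂ : 0 < C₂ := by
    have h1 := hm₁ M₀ hM₀1
    have h2 := hm₂ M₀ hM₀2
    have hpos : (0 : ℝ) < (M₀ : ℝ) ^ g := pow_pos (by exact_mod_cast hM₀pos) g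
    have h3 : C₁ * (M₀ : ℝ) ^ g ≤ C₂ * (M₀ : ℝ) ^ g := h1.trans h2
    have h4 : C₁ ≤ C₂ := le_of_mul_le_mul_right h3 hpos
    exact lt_of_lt_of_le hC₁ h4
  set K : ℝ := C₂ * 2 ^ g / C₁ with hK
  have hKpos : 0 < K := by positivity
  have hnpos : (0 : ℝ) < (n : ℝ) := by exact_mod_cast hn
  have hy : (0 : ℝ) < ((n : ℝ) ^ (2 * g)) := pow_pos hnpos _
  -- the two families of inequalities
  have key : ∀ j : ℕ, ((D : ℝ)) ^ j ≤ K * ((n : ℝ) ^ (2 * g)) ^ j ∧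
      ((n : ℝ) ^ (2 * g)) ^ j ≤ K * (D : ℝ) ^ j := by
    intro j
    obtain ⟨c, δ, hδ, hs⟩ := hsand j
    set m : ℕ := δ * (2 * c + M₀ + 1) with hm
    have hdvd : δ ∣ m := Dvd.intro _ rfl
    have hmge : 2 * c + M₀ + 1 ≤ m := by
      rw [hm]
      exact Nat.le_mul_of_pos_left _ hδ
    have hcm : c < m := by omega
    obtain ⟨hs1, hs2⟩ := hs m hdvd hcm
    have hmpos : (0 : ℝ) < (m : ℝ) := by
      have : 0 < m := by omega
      exact_mod_cast this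
    have hmg : (0 : ℝ) < (m : ℝ) ^ g := pow_pos hmpos g
    have hN : 1 ≤ n ^ (2 * j) := Nat.one_le_pow _ _ hn
    have hNm : m₁ ≤ n ^ (2 * j) * m ∧ m₂ ≤ n ^ (2 * j) * m := by
      have : m ≤ n ^ (2 * j) * m := Nat.le_mul_of_pos_left _ hN
      omega
    -- real-number versions
    have hs1' : (D : ℝ) ^ j * (a (m - c) : ℝ) ≤ (a (n ^ (2 * j) * m) : ℝ) := by
      exact_mod_cast hs1
    have hs2' : (a (n ^ (2 * j) * m) : ℝ) ≤ (D : ℝ) ^ j * (a (m + c) : ℝ) := by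
      exact_mod_cast hs2
    have hcast : ((n ^ (2 * j) * m : ℕ) : ℝ) ^ g = ((n : ℝ) ^ (2 * g)) ^ j * (m : ℝ) ^ g := by
      push_cast
      rw [mul_pow, ← pow_mul, ← pow_mul]
      have e : 2 * j * g = 2 * g * j := by ring
      rw [e]
    have hDj : (0 : ℝ) ≤ (D : ℝ) ^ j := by positivity
    constructor
    · -- upper bound for `D ^ j`
      have h1 : C₁ * ((m - c : ℕ) : ℝ) ^ g ≤ a (m - c) := hm₁ (m - c) (by omega)
      have h2 : (a (n ^ (2 * j) * m) : ℝ) ≤ C₂ * ((n ^ (2 * j) * m : ℕ) : ℝ) ^ g :=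
        hm₂ _ hNm.2
      have h3 : (m : ℝ) / 2 ≤ ((m - c : ℕ) : ℝ) := by
        rw [Nat.cast_sub (le_of_lt hcm)]
        have : (2 : ℝ) * c + 1 ≤ m := by
          have : 2 * c + 1 ≤ m := by omega
          exact_mod_cast this
        linarith
      have h4 : ((m : ℝ) / 2) ^ g ≤ ((m - c : ℕ) : ℝ) ^ g :=
        pow_le_pow_left₀ (by positivity) h3 g
      have h5 : (D : ℝ) ^ j * (C₁ * ((m : ℝ) / 2) ^ g) ≤ C₂ * (((n : ℝ) ^ (2 * g)) ^ j * (m : ℝ) ^ g) := by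
        calc (D : ℝ) ^ j * (C₁ * ((m : ℝ) / 2) ^ g)
            ≤ (D : ℝ) ^ j * (C₁ * ((m - c : ℕ) : ℝ) ^ g) := by
              apply mul_le_mul_of_nonneg_left _ hDj
              exact mul_le_mul_of_nonneg_left h4 hC₁.le
          _ ≤ (D : ℝ) ^ j * (a (m - c) : ℝ) := mul_le_mul_of_nonneg_left h1 hDj
          _ ≤ (a (n ^ (2 * j) * m) : ℝ) := hs1'
          _ ≤ C₂ * ((n ^ (2 * j) * m : ℕ) : ℝ) ^ g := h2
          _ = C₂ * (((n : ℝ) ^ (2 * g)) ^ j * (m : ℝ) ^ g) := by rw [hcast]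
      have h6 : (D : ℝ) ^ j * (C₁ / 2 ^ g) * (m : ℝ) ^ g ≤
          C₂ * ((n : ℝ) ^ (2 * g)) ^ j * (m : ℝ) ^ g := by
        have e1 : (D : ℝ) ^ j * (C₁ * ((m : ℝ) / 2) ^ g) =
            (D : ℝ) ^ j * (C₁ / 2 ^ g) * (m : ℝ) ^ g := by
          rw [div_pow]; ring
        have e2 : C₂ * (((n : ℝ) ^ (2 * g)) ^ j * (m : ℝ) ^ g) =
            C₂ * ((n : ℝ) ^ (2 * g)) ^ j * (m : ℝ) ^ g := by ring
        rw [← e1, ← e2]
        exact h5
      have h7 : (D : ℝ) ^ j * (C₁ / 2 ^ g) ≤ C₂ * ((n : ℝ) ^ (2 * g)) ^ j :=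
        le_of_mul_le_mul_right h6 hmg
      have h8 : (0 : ℝ) < C₁ / 2 ^ g := by positivity
      rw [hK]
      have : (D : ℝ) ^ j ≤ C₂ * ((n : ℝ) ^ (2 * g)) ^ j / (C₁ / 2 ^ g) := by
        rw [le_div_iff₀ h8]; exact h7
      calc (D : ℝ) ^ j ≤ C₂ * ((n : ℝ) ^ (2 * g)) ^ j / (C₁ / 2 ^ g) := this
        _ = C₂ * 2 ^ g / C₁ * ((n : ℝ) ^ (2 * g)) ^ j := by
          field_simp
    · -- lower bound for `D ^ j`
      have h1 : C₁ * ((n ^ (2 * j) * m : ℕ) : ℝ) ^ g ≤ a (n ^ (2 * j) * m) := hm₁ _ hNm.1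
      have h2 : (a (m + c) : ℝ) ≤ C₂ * ((m + c : ℕ) : ℝ) ^ g := hm₂ (m + c) (by omega)
      have h3 : ((m + c : ℕ) : ℝ) ≤ 2 * (m : ℝ) := by
        push_cast
        have : (c : ℝ) ≤ m := by exact_mod_cast (le_of_lt hcm)
        linarith
      have h4 : ((m + c : ℕ) : ℝ) ^ g ≤ (2 * (m : ℝ)) ^ g :=
        pow_le_pow_left₀ (by positivity) h3 g
      have h5 : C₁ * (((n : ℝ) ^ (2 * g)) ^ j * (m : ℝ) ^ g) ≤
          (D : ℝ) ^ j * (C₂ * (2 * (m : ℝ)) ^ g) := by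
        calc C₁ * (((n : ℝ) ^ (2 * g)) ^ j * (m : ℝ) ^ g)
            = C₁ * ((n ^ (2 * j) * m : ℕ) : ℝ) ^ g := by rw [hcast]
          _ ≤ (a (n ^ (2 * j) * m) : ℝ) := h1
          _ ≤ (D : ℝ) ^ j * (a (m + c) : ℝ) := hs2'
          _ ≤ (D : ℝ) ^ j * (C₂ * ((m + c : ℕ) : ℝ) ^ g) :=
              mul_le_mul_of_nonneg_left h2 hDj
          _ ≤ (D : ℝ) ^ j * (C₂ * (2 * (m : ℝ)) ^ g) := by
              apply mul_le_mul_of_nonneg_left _ hDj
              exact mul_le_mul_of_nonneg_left h4 hC₂.le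
      have h6 : C₁ * ((n : ℝ) ^ (2 * g)) ^ j * (m : ℝ) ^ g ≤
          (D : ℝ) ^ j * (C₂ * 2 ^ g) * (m : ℝ) ^ g := by
        have e1 : C₁ * (((n : ℝ) ^ (2 * g)) ^ j * (m : ℝ) ^ g) =
            C₁ * ((n : ℝ) ^ (2 * g)) ^ j * (m : ℝ) ^ g := by ring
        have e2 : (D : ℝ) ^ j * (C₂ * (2 * (m : ℝ)) ^ g) =
            (D : ℝ) ^ j * (C₂ * 2 ^ g) * (m : ℝ) ^ g := by
          rw [mul_pow]; ring
        rw [← e1, ← e2]
        exact h5
      have h7 : C₁ * ((n : ℝ) ^ (2 * g)) ^ j ≤ (D : ℝ) ^ j * (C₂ * 2 ^ g) :=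
        le_of_mul_le_mul_right h6 hmg
      rw [hK]
      have : ((n : ℝ) ^ (2 * g)) ^ j ≤ (D : ℝ) ^ j * (C₂ * 2 ^ g) / C₁ := by
        rw [le_div_iff₀ hC₁, mul_comm]; exact h7
      calc ((n : ℝ) ^ (2 * g)) ^ j ≤ (D : ℝ) ^ j * (C₂ * 2 ^ g) / C₁ := this
        _ = C₂ * 2 ^ g / C₁ * (D : ℝ) ^ j := by ring
  -- `D` is positive
  have hDpos : (0 : ℝ) < (D : ℝ) := by
    have h1 := (key 1).2
    rw [pow_one, pow_one] at h1
    by_contra hD
    have hD0 : (D : ℝ) = 0 := le_antisymm (not_lt.1 hD) (by positivity)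
    rw [hD0, mul_zero] at h1
    exact absurd h1 (not_le.2 hy)
  have hle : (D : ℝ) ≤ (n : ℝ) ^ (2 * g) :=
    le_of_forall_pow_le_mul_pow hy (fun j => (key j).1)
  have hge : (n : ℝ) ^ (2 * g) ≤ (D : ℝ) :=
    le_of_forall_pow_le_mul_pow hDpos (fun j => (key j).2)
  have : (D : ℝ) = ((n ^ (2 * g) : ℕ) : ℝ) := by
    push_cast
    exact le_antisymm hle hge
  exact_mod_cast this


/-! ### Growth bounds -/

/-- **Lower growth bound.**  If `a` is monotone and `a (e k) ≥ (k + 1) ^ g` for all `k` (there are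
`(k + 1) ^ g` "box" monomials `∏ fᵢ ^ sᵢ`, `sᵢ ≤ k`, in `g` algebraically independent functions,
all with poles of order `≤ e k`), then `a m ≥ m ^ g / e ^ g` for all `m`. -/
theorem exists_lower_bound_of_box (a : ℕ → ℕ) (hmono : Monotone a) (e g : ℕ) (he : 0 < e)
    (h : ∀ k : ℕ, (k + 1) ^ g ≤ a (e * k)) :
    ∃ C₁ : ℝ, 0 < C₁ ∧ ∀ m : ℕ, C₁ * (m : ℝ) ^ g ≤ a m := by
  have hepos : (0 : ℝ) < (e : ℝ) := by exact_mod_cast he
  refine ⟨1 / (e : ℝ) ^ g, by positivity, fun m => ?_⟩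
  have h1 : e * (m / e) ≤ m := Nat.mul_div_le m e
  have h2 : m < e * (m / e + 1) := Nat.lt_mul_div_succ m he
  have h3 : (m / e + 1) ^ g ≤ a m := (h (m / e)).trans (hmono h1)
  have h3' : (((m / e + 1 : ℕ) : ℝ)) ^ g ≤ (a m : ℝ) := by exact_mod_cast h3
  have h4 : (m : ℝ) ≤ (e : ℝ) * ((m / e + 1 : ℕ) : ℝ) := by exact_mod_cast h2.le
  have h5 : (m : ℝ) ^ g ≤ ((e : ℝ) * ((m / e + 1 : ℕ) : ℝ)) ^ g :=
    pow_le_pow_left₀ (by positivity) h4 g
  rw [mul_pow] at h5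
  have h6 : 1 / (e : ℝ) ^ g * (m : ℝ) ^ g ≤ (((m / e + 1 : ℕ) : ℝ)) ^ g := by
    rw [one_div, inv_mul_le_iff₀ (pow_pos hepos g)]
    exact h5
  exact h6.trans h3'

/-- **Upper growth bound.**  A product bound `a m ≤ ∏ᵢ (m bᵢ + 1)` over a finite index type `ι`
gives `a m ≤ C₂ m ^ #ι` for `m ≥ 1`. -/
theorem exists_upper_bound_of_prod {ι : Type*} [Fintype ι] (a : ℕ → ℕ) (b : ι → ℕ)
    (h : ∀ m : ℕ, a m ≤ ∏ i, (m * b i + 1)) :
    ∃ C₂ : ℝ, ∀ m : ℕ, 1 ≤ m → (a m : ℝ) ≤ C₂ * (m : ℝ) ^ (Fintype.card ι) := by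
  refine ⟨((∏ i, (b i + 1) : ℕ) : ℝ), fun m hm => ?_⟩
  have h1 : ∏ i, (m * b i + 1) ≤ ∏ i, (m * (b i + 1)) := by
    apply Finset.prod_le_prod'
    intro i _
    have : m * b i + 1 ≤ m * b i + m := by omega
    calc m * b i + 1 ≤ m * b i + m := this
      _ = m * (b i + 1) := by ring
  have h2 : ∏ i : ι, (m * (b i + 1)) = (∏ i, (b i + 1)) * m ^ (Fintype.card ι) := by
    rw [Finset.prod_mul_distrib, Finset.prod_const, Finset.card_univ, mul_comm]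
  have h3 : a m ≤ (∏ i, (b i + 1)) * m ^ (Fintype.card ι) := by
    rw [← h2]
    exact (h m).trans h1
  exact_mod_cast h3

/-! ### Packaged forms -/

/-- **Volume trick with a degree function.**  `d N = #A[N]` with `d (n ^ j) = d n ^ j`, growth
bounds of order `m ^ g`, and for every power `N` of `n` a sandwich
`d N · a (m - c) ≤ a (N² m) ≤ d N · a (m + c)` (for all `m > c`, `c` depending on `N`),
force `d n = n ^ (2 g)`. -/
theorem deg_eq_pow_of_sandwich (g n : ℕ) (hn : 1 ≤ n) (d : ℕ → ℕ)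
    (hd : ∀ j : ℕ, d (n ^ j) = d n ^ j) (a : ℕ → ℕ) (C₁ C₂ : ℝ) (hC₁ : 0 < C₁)
    (hlow : ∃ m₀ : ℕ, ∀ m : ℕ, m₀ ≤ m → C₁ * (m : ℝ) ^ g ≤ a m)
    (hupp : ∃ m₀ : ℕ, ∀ m : ℕ, m₀ ≤ m → (a m : ℝ) ≤ C₂ * (m : ℝ) ^ g)
    (hsand : ∀ N : ℕ, (∃ j : ℕ, N = n ^ j) → ∃ c : ℕ, ∀ m : ℕ, c < m →
      d N * a (m - c) ≤ a (N ^ 2 * m) ∧ a (N ^ 2 * m) ≤ d N * a (m + c)) :
    d n = n ^ (2 * g) := by
  refine eq_pow_of_sandwich g n (d n) hn a C₁ C₂ hC₁ hlow hupp (fun j => ?_)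
  obtain ⟨c, hc⟩ := hsand (n ^ j) ⟨j, rfl⟩
  refine ⟨c, 1, Nat.one_pos, fun m _ hcm => ?_⟩
  have e : (n ^ j) ^ 2 = n ^ (2 * j) := by rw [← pow_mul, mul_comm]
  have := hc m hcm
  rw [hd j, e] at this
  exact this

/-- **Volume trick, fully assembled.**  Inputs: `a` monotone; box-monomial lower bound
`(k + 1) ^ g ≤ a (e k)`; product upper bound `a m ≤ ∏_{i < g} (m bᵢ + 1)`; multiplicativity
`d (n ^ j) = d n ^ j`; and the sandwich for every power `N` of `n`.  Output: `d n = n ^ (2 g)`. -/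
theorem deg_eq_pow_of_box_of_prod (g n : ℕ) (hn : 1 ≤ n) (d : ℕ → ℕ)
    (hd : ∀ j : ℕ, d (n ^ j) = d n ^ j) (a : ℕ → ℕ) (hmono : Monotone a)
    (e : ℕ) (he : 0 < e) (hbox : ∀ k : ℕ, (k + 1) ^ g ≤ a (e * k))
    (b : Fin g → ℕ) (hprod : ∀ m : ℕ, a m ≤ ∏ i, (m * b i + 1))
    (hsand : ∀ N : ℕ, (∃ j : ℕ, N = n ^ j) → ∃ c : ℕ, ∀ m : ℕ, c < m →
      d N * a (m - c) ≤ a (N ^ 2 * m) ∧ a (N ^ 2 * m) ≤ d N * a (m + c)) :
    d n = n ^ (2 * g) := by
  obtain ⟨C₁, hC₁, hlow⟩ := exists_lower_bound_of_box a hmono e g he hbox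
  obtain ⟨C₂, hupp⟩ := exists_upper_bound_of_prod a b hprod
  rw [Fintype.card_fin] at hupp
  exact deg_eq_pow_of_sandwich g n hn d hd a C₁ C₂ hC₁ ⟨0, fun m _ => hlow m⟩ ⟨1, hupp⟩ hsand

/-! ### Box monomials in algebraically independent elements -/

section Box

variable {K F : Type*} [Field K] [CommRing F] [Algebra K F]

/-- The box monomial `∏ᵢ fᵢ ^ sᵢ`. -/
noncomputable def boxMonomial {g : ℕ} (f : Fin g → F) (k : ℕ) (s : Fin g → Fin (k + 1)) : F :=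
  ∏ i, f i ^ (s i : ℕ)

/-- Box monomials in algebraically independent elements are linearly independent. -/
theorem linearIndependent_boxMonomial {g : ℕ} (f : Fin g → F) (hf : AlgebraicIndependent K f)
    (k : ℕ) : LinearIndependent K (boxMonomial f k) := by
  classical
  -- the corresponding monomials in the polynomial ring
  let ι : (Fin g → Fin (k + 1)) → (Fin g →₀ ℕ) :=
    fun s => Finsupp.equivFunOnFinite.symm (fun i => (s i : ℕ))
  have hι : Function.Injective ι := by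
    intro s t hst
    have h1 : (fun i => (s i : ℕ)) = fun i => (t i : ℕ) :=
      Finsupp.equivFunOnFinite.symm.injective hst
    funext i
    exact Fin.ext (congrFun h1 i)
  have h1 : LinearIndependent K
      (fun s : Fin g → Fin (k + 1) => (MvPolynomial.monomial (ι s) (1 : K))) := by
    have hb : LinearIndependent K (fun s : Fin g →₀ ℕ => MvPolynomial.monomial s (1 : K)) := by
      have := (MvPolynomial.basisMonomials (Fin g) K).linearIndependent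
      rwa [MvPolynomial.coe_basisMonomials] at this
    exact hb.comp ι hι
  have h2 : LinearIndependent K
      (fun s : Fin g → Fin (k + 1) =>
        (MvPolynomial.aeval f).toLinearMap (MvPolynomial.monomial (ι s) (1 : K))) := by
    apply h1.map'
    rw [LinearMap.ker_eq_bot]
    exact hf
  convert h2 using 2
  rename_i s
  simp only [boxMonomial, AlgHom.toLinearMap_apply, MvPolynomial.aeval_monomial, map_one, one_mul]
  rw [Finsupp.prod_fintype _ _ (fun i => pow_zero _)]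
  rfl

/-- **Dimension count.**  If a finite-dimensional `K`-subspace `V ⊆ F` contains all box monomials
`∏ fᵢ ^ sᵢ` (`sᵢ ≤ k`) in `g` algebraically independent elements, then `(k + 1) ^ g ≤ dim V`. -/
theorem pow_le_finrank_of_boxMonomial_mem {g : ℕ} (f : Fin g → F)
    (hf : AlgebraicIndependent K f) (k : ℕ) (V : Submodule K F) [Module.Finite K V]
    (hV : ∀ s : Fin g → Fin (k + 1), boxMonomial f k s ∈ V) :
    (k + 1) ^ g ≤ Module.finrank K V := by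
  classical
  have hli : LinearIndependent K
      (fun s : Fin g → Fin (k + 1) => (⟨boxMonomial f k s, hV s⟩ : V)) := by
    apply LinearIndependent.of_comp V.subtype
    exact linearIndependent_boxMonomial f hf k
  have := hli.fintype_card_le_finrank
  simpa using this

end Box

end Fermat.Agent.AV.Vol82
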